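import Fermat.Agent.RTLift.Finish.Interface

/-!
# The inputs of the final assembly, for an odd prime `p`

Level lowering at a squarefree level: `p` is removed first (when `E[p]` is flat), then the primes
`q ≢ 1 mod p` where `E[p]` is unramified, then those `≡ 1 mod p` (which need that `p` is absent
from the level unless `E[p]` is not flat).
-/

set_option autoImplicit false

open WeierstrassCurve

namespace FermatAgent.Wiring.Final

open RTLift.Finish

/-- Remove `p` from the level when `E[p]` is flat. -/
def PLowering : Prop :=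
  ∀ (W : WeierstrassCurve ℤ) (p : ℕ) [Fact p.Prime], p ≠ 2 → W.Δ ≠ 0 → W.IsSemistableModel →
    W.ModRepIsIrreducible p → ∀ M : ℕ, Squarefree M → p ∣ M → FlatMod W p →
    W.IsResiduallyModularOfLevel p M → W.IsResiduallyModularOfLevel p (M / p)

/-- Remove a prime `q ≢ 1 mod p` at which `E[p]` is unramified. -/
def QLoweringNe : Prop :=
  ∀ (W : WeierstrassCurve ℤ) (p : ℕ) [Fact p.Prime], p ≠ 2 → W.Δ ≠ 0 → W.IsSemistableModel →
    W.ModRepIsIrreducible p → ∀ M q : ℕ, Squarefree M → q.Prime → q ≠ p → q % p ≠ 1 → q ∣ M →
    UnramifiedMod W p q → W.IsResiduallyModularOfLevel p M → W.IsResiduallyModularOfLevel p (M / q)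

/-- Remove a prime `q ≡ 1 mod p` at which `E[p]` is unramified. -/
def QLoweringOne : Prop :=
  ∀ (W : WeierstrassCurve ℤ) (p : ℕ) [Fact p.Prime], p ≠ 2 → W.Δ ≠ 0 → W.IsSemistableModel →
    W.ModRepIsIrreducible p → FullImage W p → ∀ M q : ℕ, Squarefree M →
    (p ∣ M → ¬ FlatMod W p) → q.Prime → q ≠ p → q % p = 1 → q ∣ M → UnramifiedMod W p q →
    W.IsResiduallyModularOfLevel p M → W.IsResiduallyModularOfLevel p (M / q)

/-- The level lowering inputs. -/
structure LoweringInputs : Prop where
  pLowering : PLowering
  qLoweringNe : QLoweringNe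
  qLoweringOne : QLoweringOne

/-- The inputs of modularity lifting. -/
structure LiftingInputs : Prop extends LoweringInputs where
  sqLowering : SqLoweringStep
  minimalLifting : MinimalLiftingStep

end FermatAgent.Wiring.Final
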