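import Fermat.Agent.MazurPrinciple.Away.Final
import Fermat.Agent.Wiring.Frey

/-!
# Residual modularity does not depend on the integral model
-/

set_option autoImplicit false

open scoped WeierstrassCurve.Affine

namespace FermatAgent.Wiring.Final

open WeierstrassCurve WeierstrassCurve.Affine
open FermatAgent.Ihara (torMat torMat_frobenius)

noncomputable section

local notation "Qb" => AlgebraicClosure ℚ
local notation "GQ" => AlgebraicClosure ℚ ≃ₐ[ℚ] AlgebraicClosure ℚ

variable {p : ℕ} [Fact p.Prime]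

/-- Two models of the same curve have the same trace on `E[p]`. -/
theorem trace_torMat_eq {V W : WeierstrassCurve ℤ} (hV : (V.map (Int.castRingHom ℚ)).Δ ≠ 0)
    (hW : (W.map (Int.castRingHom ℚ)).Δ ≠ 0) (C : VariableChange ℚ)
    (hC : C • V.map (Int.castRingHom ℚ) = W.map (Int.castRingHom ℚ)) (σ : GQ) :
    (torMat W (p := p) hW σ).trace = (torMat V (p := p) hV σ).trace := by
  obtain ⟨f, hf, hfs⟩ := Ihara.exists_pointHom ((W.map (Int.castRingHom ℚ))⁄Qb)
    ((V.map (Int.castRingHom ℚ))⁄Qb) (C.map (algebraMap ℚ Qb)) (by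
      rw [← hC]
      simp only [WeierstrassCurve.baseChange, WeierstrassCurve.map_variableChange])
  have hequiv : ∀ P, f (σ • P) = σ • f P := by
    intro P
    rcases P with _ | ⟨x, y, hns⟩
    · show f 0 = σ • f 0
      rw [map_zero]
      rfl
    · obtain ⟨h1, e1⟩ := hfs x y hns
      rw [e1, Point.algEquiv_smul_def, Point.algEquiv_smul_def, Point.map_some, Point.map_some]
      obtain ⟨h2, e2⟩ := hfs (σ x) (σ y)
        (((W.map (Int.castRingHom ℚ)).toAffine.baseChange_nonsingular
          (f := σ.toAlgHom) σ.injective x y).mpr hns)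
      refine e2.trans ?_
      simp only [Point.some.injEq]
      constructor <;>
        simp only [Local.vcX, Local.vcY, VariableChange.map, Units.coe_map, MonoidHom.coe_coe] <;>
        simp
  let g := AddEquiv.ofBijective f hf
  have hmem : ∀ P, P ∈ Submodule.torsionBy ℤ ((W.map (Int.castRingHom ℚ))⁄Qb).Point (p : ℤ) ↔
      g P ∈ Submodule.torsionBy ℤ ((V.map (Int.castRingHom ℚ))⁄Qb).Point (p : ℤ) := fun P ↦ by
    rw [Submodule.mem_torsionBy_iff, Submodule.mem_torsionBy_iff, ← map_zsmul, map_eq_zero_iff _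
      g.injective]
  let e : Submodule.torsionBy ℤ ((W.map (Int.castRingHom ℚ))⁄Qb).Point (p : ℤ) ≃+
      Submodule.torsionBy ℤ ((V.map (Int.castRingHom ℚ))⁄Qb).Point (p : ℤ) :=
    { toFun := fun P ↦ ⟨g P, (hmem P).mp P.2⟩
      invFun := fun P ↦ ⟨g.symm P, (hmem _).mpr (by rw [g.apply_symm_apply]; exact P.2)⟩
      left_inv := fun P ↦ Subtype.ext (g.symm_apply_apply _)
      right_inv := fun P ↦ Subtype.ext (g.apply_symm_apply _)
      map_add' := fun P Q ↦ Subtype.ext (map_add g _ _) }
  let eL : (Conductor.torsionRep W (p := p) hW).V ≃ₗ[ZMod p] (Conductor.torsionRep V (p := p) hV).V :=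
    e.toLinearEquiv (R := ZMod p) (fun c x ↦ ZMod.map_smul e.toAddMonoidHom c x)
  have h : eL.conj ((Conductor.torsionRep W (p := p) hW).ρ σ) =
      (Conductor.torsionRep V (p := p) hV).ρ σ := LinearMap.ext fun P => by
    rw [LinearEquiv.conj_apply_apply]
    refine (Subtype.ext (hequiv (eL.symm P).1) : eL ((Conductor.torsionRep W hW).ρ σ (eL.symm P)) =
      (Conductor.torsionRep V hV).ρ σ (eL (eL.symm P))).trans ?_
    rw [LinearEquiv.apply_symm_apply]
  rw [torMat, torMat, GalRep.matrixHom_apply, GalRep.matrixHom_apply]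
  show (LinearMap.toMatrix _ _ _).trace = (LinearMap.toMatrix _ _ _).trace
  rw [← LinearMap.trace_eq_matrix_trace, ← LinearMap.trace_eq_matrix_trace, ← h,
    LinearMap.trace_conj']

open MazurPrinciple.Away in
/-- Residual modularity passes to every model. -/
theorem residuallyModular_variableChange {V W : WeierstrassCurve ℤ}
    (hV : (V.map (Int.castRingHom ℚ)).Δ ≠ 0) (hirr : V.ModRepIsIrreducible p) (C : VariableChange ℚ)
    (hC : C • V.map (Int.castRingHom ℚ) = W.map (Int.castRingHom ℚ)) {N : ℕ} [NeZero N]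
    (h : W.IsResiduallyModularOfLevel p N) : V.IsResiduallyModularOfLevel p N := by
  have hW : (W.map (Int.castRingHom ℚ)).Δ ≠ 0 := by
    rw [← hC, WeierstrassCurve.variableChange_Δ]
    exact mul_ne_zero (pow_ne_zero _ (Units.ne_zero _)) hV
  have hirrW : W.ModRepIsIrreducible p := by
    have h := Ihara.irreducible_variableChange _ C p hirr
    rwa [hC] at h
  have hint : ∀ U : WeierstrassCurve ℤ, (U.map (Int.castRingHom ℚ)).Δ ≠ 0 → U.Δ ≠ 0 :=
    fun U hU h0 => hU (by rw [WeierstrassCurve.map_Δ, h0, map_zero])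
  obtain ⟨f, 𝔪, hf, hmax, hmem, hl⟩ := h
  refine isResiduallyModularOfLevel_of_hasCongruentForm hV hirr (S := badSet V p N ∪ badSet W p N)
    ((finite_badSet V (hint V hV) p N).union (finite_badSet W (hint W hW) p N))
    ⟨f, 𝔪, hf, hmax, hmem, fun l hl' hlN hlS => ?_⟩
  rw [Set.mem_union, not_or] at hlS
  have hgV := good_of_notMem_badSet V hl' hlS.1
  have hgW := good_of_notMem_badSet W hl' hlS.2
  have hlp : l ≠ p := fun e => hlS.1 (Or.inl e)
  obtain ⟨A, τ, hA, hτ⟩ := RT.exists_place_isFrobeniusAt hl'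
  have he : ((V.apOfModel l : ℤ) : ZMod p) = ((W.apOfModel l : ℤ) : ZMod p) := by
    rw [← (torMat_frobenius V hV hirr hl' hgV hlp hA hτ).1,
      ← (torMat_frobenius W hW hirrW hl' hgW hlp hA hτ).1, trace_torMat_eq hV hW C hC]
  obtain ⟨m, hm⟩ := (ZMod.intCast_eq_intCast_iff_dvd_sub _ _ p).mp he
  obtain ⟨b, hb, hbm⟩ := hl l hl' hgW hlN hlp
  refine ⟨b, hb, ?_⟩
  have e : b - (V.apOfModel l : integralClosure ℤ ℂ) = (b - (W.apOfModel l : integralClosure ℤ ℂ)) +
      (p : integralClosure ℤ ℂ) * (m : integralClosure ℤ ℂ) := by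
    have h' := congrArg (Int.cast : ℤ → integralClosure ℤ ℂ) hm
    push_cast at h'
    linear_combination h'
  rw [e]
  exact add_mem hbm (Ideal.mul_mem_right _ _ hmem)

end

end FermatAgent.Wiring.Final
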