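import Fermat.Agent.Wiring.Final.TameRamified
import Fermat.Agent.Wiring.Frey
import Fermat.Prelude.Def_FLTPrelim_Modularity

/-!
# The Frey curve: full image
-/

set_option autoImplicit false

namespace FermatAgent.Wiring.Final

open WeierstrassCurve

/-- Irreducible `E[p]` of the Frey curve has full image: it is ramified at `2`. -/
theorem fullImage_freyCurveInt (P : FreyPackage) [Fact P.p.Prime]
    (hirr : (FreyPackage.freyCurveInt P).ModRepIsIrreducible P.p) :
    RTLift.Finish.FullImage (FreyPackage.freyCurveInt P) P.p := by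
  have hp5 := P.hp5
  have : Fact (Nat.Prime 2) := ⟨Nat.prime_two⟩
  set V := FreyPackage.freyCurveInt P
  have hΔ := freyCurveInt_Δ_ne_zero P
  have habc := P.habc0
  have hb : (2 : ℤ) ∣ P.a * P.b * P.c := by
    have h : (2 : ℤ) ∣ P.b := (ZMod.intCast_zmod_eq_zero_iff_dvd P.b 2).1 P.hb2
    exact (h.mul_left _).mul_right _
  set k := padicValInt 2 (P.a * P.b * P.c)
  have hk : 1 ≤ k :=
    one_le_padicValNat_of_dvd (Int.natAbs_ne_zero.mpr habc) (Int.natCast_dvd.mp hb)
  have e : padicValInt 2 V.Δ + 8 = P.p * 2 * k := by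
    have h := congrArg (padicValInt 2) (freyCurveInt_Δ_eq P)
    rw [padicValInt.mul (by norm_num) hΔ,
      show padicValInt 2 (256 : ℤ) = 8 by
        rw [padicValInt, show ((256 : ℤ)).natAbs = 2 ^ 8 by norm_num, padicValNat.prime_pow],
      ← pow_mul, padicValInt, padicValInt, Int.natAbs_pow, padicValNat.pow] at h
    rw [padicValInt]
    show _ = P.p * 2 * padicValNat 2 (P.a * P.b * P.c).natAbs
    exact (add_comm _ _).trans h
  have hmul : 10 ≤ P.p * 2 * k := by
    have := Nat.mul_le_mul (Nat.mul_le_mul hp5 (le_refl 2)) hk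
    omega
  refine fullImage_of_not_dvd (by omega) (freyCurveInt_isSemistableModel P) hirr Nat.prime_two
    (by omega) ?_ fun hd => ?_
  · by_contra h
    have := padicValInt.eq_zero_of_not_dvd (p := 2) h
    omega
  · have h8 : P.p ∣ 8 := (Nat.dvd_add_right hd).1 (e ▸ (dvd_mul_right P.p 2).mul_right k)
    have := (Nat.prime_dvd_prime_iff_eq P.pp Nat.prime_two).1
      (P.pp.dvd_of_dvd_pow (show P.p ∣ 2 ^ 3 from h8))
    omega

end FermatAgent.Wiring.Final
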