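import Fermat.Agent.Wiring.Final.Gaps
import Fermat.Agent.Wiring.Final.Frey
import Fermat.Agent.Wiring.Final.Bridge
import Fermat.Agent.MazurPrinciple.PLowering
import Fermat.Prelude.Def_FLTPrelim_Ramification
import Fermat.Prelude.Def_FreyPackage_IsConductorLevel

/-!
# Level lowering for the Frey curve away from `p` (statement S43)
-/

set_option autoImplicit false

open WeierstrassCurve WeierstrassCurve.Affine WeierstrassCurve.Affine.Point

namespace FermatAgent.Wiring.Final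

open RTLift.Finish

/-- A residual level of the integral Frey model is a level of the package. -/
theorem modularRepOfLevel_of_residual (P : FreyPackage) {M : ℕ}
    (h : (FreyPackage.freyCurveInt P).IsResiduallyModularOfLevel P.p M) : P.ModularRepOfLevel M := by
  obtain ⟨f, 𝔪, hf, hmax, hmem, hl⟩ := h
  exact ⟨f, _, 𝔪, hf, freyCurveInt_isIntegralModelOf P, hmax, hmem, hl⟩

/-- Statement S43 from the inputs. -/
theorem frey_levelLowering (h : LoweringInputs) (P : FreyPackage) {N q : ℕ}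
    (hcond : P.IsConductorLevel N) (hq : q.Prime) (hqp : q ≠ P.p) (hqN : q ∣ N)
    (hirr : GaloisRepIsIrreducible (K := AlgebraicClosure ℚ) ℚ P.freyCurve P.p)
    (hmod : P.ModularRepOfLevel N) (hunr : P.GaloisRepUnramifiedAt q) :
    ∃ M : ℕ, M ∣ N ∧ ¬ q ∣ M ∧ P.ModularRepOfLevel M := by
  have := Fact.mk P.pp
  have : NeZero N := ⟨hcond.pos.ne'⟩
  have hp2 : P.p ≠ 2 := by have := P.hp5; omega
  set V := FreyPackage.freyCurveInt P
  have hmap : V.map (Int.castRingHom ℚ) = P.freyCurve := map_freyCurveInt P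
  have hΔ := freyCurveInt_Δ_ne_zero P
  have hΔ' : (V.map (Int.castRingHom ℚ)).Δ ≠ 0 := by
    rw [WeierstrassCurve.map_Δ, eq_intCast, Int.cast_ne_zero]; exact hΔ
  have hss := freyCurveInt_isSemistableModel P
  have hirrV : V.ModRepIsIrreducible P.p := by
    rw [WeierstrassCurve.ModRepIsIrreducible, hmap]; exact hirr
  have hu : UnramifiedMod V P.p q := by
    unfold UnramifiedMod; rw [hmap]; exact hunr
  obtain ⟨f, W, 𝔪, hf, ⟨C, hC⟩, hmax, hmem, hl⟩ := hmod
  have hres : V.IsResiduallyModularOfLevel P.p N :=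
    residuallyModular_variableChange hΔ' hirrV C (by rw [hmap, hC]) ⟨f, 𝔪, hf, hmax, hmem, hl⟩
  have hfin : ∀ {M : ℕ}, M ∣ N → q ∣ M → V.IsResiduallyModularOfLevel P.p (M / q) →
      ∃ M : ℕ, M ∣ N ∧ ¬ q ∣ M ∧ P.ModularRepOfLevel M := fun {M} hMN hqM h' =>
    ⟨M / q, (Nat.div_dvd_of_dvd hqM).trans hMN, fun hd =>
      hcond.sq_not_dvd hq (by rw [sq]; exact ((Nat.dvd_div_iff_mul_dvd hqM).1 hd).trans hMN),
      modularRepOfLevel_of_residual P h'⟩
  by_cases h1 : q % P.p = 1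
  · obtain ⟨M, hMN, hresM, hpM, hqM⟩ : ∃ M : ℕ, M ∣ N ∧ V.IsResiduallyModularOfLevel P.p M ∧
        ¬ P.p ∣ M ∧ q ∣ M := by
      by_cases hpN : P.p ∣ N
      · refine ⟨N / P.p, Nat.div_dvd_of_dvd hpN, h.pLowering V P.p hp2 hΔ hss hirrV N
          hcond.squarefree hpN (MazurPrinciple.flatMod_freyCurveInt P) hres, fun hd => ?_, ?_⟩
        · exact hcond.sq_not_dvd P.pp (by rw [sq]; exact (Nat.dvd_div_iff_mul_dvd hpN).1 hd)
        · rw [Nat.dvd_div_iff_mul_dvd hpN]
          exact Nat.Coprime.mul_dvd_of_dvd_of_dvd ((Nat.coprime_primes P.pp hq).2 hqp.symm) hpN hqN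
      · exact ⟨N, dvd_rfl, hres, hpN, hqN⟩
    exact hfin hMN hqM (h.qLoweringOne V P.p hp2 hΔ hss hirrV (fullImage_freyCurveInt P hirrV) M q
      (hcond.squarefree.squarefree_of_dvd hMN) (fun hd => absurd hd hpM) hq hqp h1 hqM hu hresM)
  · exact hfin dvd_rfl hqN
      (h.qLoweringNe V P.p hp2 hΔ hss hirrV N q hcond.squarefree hq hqp h1 hqN hu hres)

end FermatAgent.Wiring.Final
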