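import Fermat.Agent.Wiring.Final.Chain
import Fermat.Agent.Wiring.Final.Lowering
import Fermat.Agent.S05
import Fermat.Agent.S07
import Fermat.Agent.S08
import Fermat.Agent.S09
import Fermat.Agent.S44

/-!
# The endgame from the lifting inputs (statements S45, S03, S01)
-/

set_option autoImplicit false

open WeierstrassCurve WeierstrassCurve.Affine WeierstrassCurve.Affine.Point

namespace FermatAgent.Wiring.Final

variable (h : LiftingInputs)
include h

theorem levelTwo (P : FreyPackage)
    (hirr : GaloisRepIsIrreducible (K := AlgebraicClosure ℚ) ℚ P.freyCurve P.p) :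
    ∃ f : CuspForm (CongruenceSubgroup.Gamma0 2) 2, f ≠ 0 :=
  exists_levelTwoForm Fermat.Agent.S05.result (freyModularRep h) Fermat.Agent.S08.result
    (fun P _ _ hcond hq _ hqp hqN hirr hmod hunr =>
      frey_levelLowering h.toLoweringInputs P hcond hq hqp hqN hirr hmod hunr)
    Fermat.Agent.S44.result P hirr

theorem noFreyPackage (P : FreyPackage) : False :=
  noFrey_of_wiring (freyModular h) Fermat.Agent.S07.result Fermat.Agent.S09.result
    (fun P _ hirr => levelTwo h P hirr) P

theorem fermat (n : ℕ) (hn : 3 ≤ n) (a b c : ℕ) (ha : 0 < a) (hb : 0 < b) (hc : 0 < c) :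
    a ^ n + b ^ n ≠ c ^ n :=
  fermat_of_noFrey (noFreyPackage h) n hn a b c ha hb hc

end FermatAgent.Wiring.Final
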