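import Fermat.Agent.Wiring.Final.LoweringProved
import Fermat.Agent.RTLift.Setup.Minimal

/-!
# The inputs of modularity lifting, proved
-/

set_option autoImplicit false

noncomputable section

namespace FermatAgent.Wiring.Final

/-- The inputs of modularity lifting. -/
theorem liftingInputs : LiftingInputs :=
  liftingInputs_of RTLift.Setup.QLow.qLoweringOne_holds RTLift.Setup.minimalLiftingStep

end FermatAgent.Wiring.Final
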