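import Fermat.Agent.Wiring.Final.Lifting
import Fermat.Agent.Switch.Chain.DescentNineMain
import Fermat.Agent.Switch.Chain.Main
import Fermat.Agent.Switch.Chain.LTInput

/-!
# Modularity of semistable curves from the lifting inputs (statements S50, S60, S04, S06)
-/

set_option autoImplicit false

open WeierstrassCurve

namespace FermatAgent.Wiring.Final

variable (h : LiftingInputs)
include h

theorem lifting : Switch.Chain.Lifting := modularityLifting h

theorem exactConductor (W : WeierstrassCurve ℤ) (hΔ : W.Δ ≠ 0) (hW : W.IsSemistableModel) :
    Mlc1IsModularModelOfExactConductorLevel W :=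
  Switch.Chain.exactConductor_of_inputs Switch.Chain.ltResidual Switch.Chain.descentNine (lifting h) W hΔ hW

theorem residualModularityThree (W : WeierstrassCurve ℤ) (hΔ : W.Δ ≠ 0)
    (hW : W.IsSemistableModel) (h3 : W.ModRepIsIrreducible 3) : ResidualOutputThree W :=
  Switch.Chain.residualModularityThree_of_inputs Switch.Chain.ltResidual Switch.Chain.descentNine (lifting h)
    W hΔ hW h3

theorem semistableModular (W : WeierstrassCurve ℤ) (hΔ : W.Δ ≠ 0) (hW : W.IsSemistableModel) :
    (W.map (Int.castRingHom ℚ)).IsModular :=
  isModular_map_of_exactConductor (exactConductor h W hΔ hW)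

theorem freyModular (P : FreyPackage) : P.freyCurve.IsModular :=
  freyModular_of_modularityTheorem (semistableModular h) P

theorem freyModularRep (P : FreyPackage) :
    ∃ N : ℕ, P.IsConductorLevel N ∧ P.ModularRepOfLevel N :=
  freyModularRep_of_exactConductor (exactConductor h) P

end FermatAgent.Wiring.Final
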