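import Fermat.Agent.Wiring.Final.Gaps
import Fermat.Agent.RTLift.Finish.Assembly
import Fermat.Agent.RTLift.Finish.Image.Main
import Fermat.Agent.S30
import Fermat.Agent.S35

/-!
# Modularity lifting at 3 and 5 from the lowering inputs, with `p` removed first
-/

set_option autoImplicit false

open WeierstrassCurve

namespace FermatAgent.Wiring.Final

open RTLift.Finish

theorem pointInput : Conductor.PointInput := Fermat.Agent.S30.result

theorem steinbergInput : Conductor.SteinbergInput := @Fermat.Agent.S35.result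

variable (h : LoweringInputs) {W : WeierstrassCurve ℤ} {p : ℕ} [Fact p.Prime] (hp2 : p ≠ 2)
  (hΔ : W.Δ ≠ 0) (hW : W.IsSemistableModel) (hirr : W.ModRepIsIrreducible p)
include h hp2 hΔ hW hirr

/-- A flat `p` leaves the level. -/
theorem exists_level_flat {M : ℕ} (hM : Squarefree M)
    (hres : W.IsResiduallyModularOfLevel p M) :
    ∃ M' : ℕ, M' ∣ M ∧ W.IsResiduallyModularOfLevel p M' ∧ (p ∣ M' → ¬ FlatMod W p) := by
  by_cases hpM : p ∣ M ∧ FlatMod W p
  · refine ⟨M / p, Nat.div_dvd_of_dvd hpM.1,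
      h.pLowering W p hp2 hΔ hW hirr M hM hpM.1 hpM.2 hres, fun hd _ => ?_⟩
    exact Nat.squarefree_iff_prime_squarefree.mp hM p Fact.out
      ((Nat.dvd_div_iff_mul_dvd hpM.1).1 hd)
  · exact ⟨M, dvd_rfl, hres, fun hd hf => hpM ⟨hd, hf⟩⟩

/-- A prime at which `E[p]` is unramified leaves the level. -/
theorem level_div (hI : FullImage W p) {M q : ℕ} (hM : Squarefree M)
    (hp : p ∣ M → ¬ FlatMod W p) (hq : q.Prime) (hqp : q ≠ p) (hqM : q ∣ M)
    (hu : UnramifiedMod W p q) (hres : W.IsResiduallyModularOfLevel p M) :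
    W.IsResiduallyModularOfLevel p (M / q) := by
  by_cases h1 : q % p = 1
  · exact h.qLoweringOne W p hp2 hΔ hW hirr hI M q hM hp hq hqp h1 hqM hu hres
  · exact h.qLoweringNe W p hp2 hΔ hW hirr M q hM hq hqp h1 hqM hu hres

/-- Iterated lowering reaches a minimal level. -/
theorem exists_minimal (hI : FullImage W p) {M : ℕ} (hM : Squarefree M)
    (hres : W.IsResiduallyModularOfLevel p M) :
    ∃ M' : ℕ, Squarefree M' ∧ W.IsResiduallyModularOfLevel p M' ∧
      (∀ q : ℕ, q.Prime → q ∣ M' → q ≠ p → ¬ UnramifiedMod W p q) ∧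
      (p ∣ M' → ¬ FlatMod W p) := by
  obtain ⟨M₁, hd, hres₁, hp₁⟩ := exists_level_flat h hp2 hΔ hW hirr hM hres
  have hM₁ := hM.squarefree_of_dvd hd
  clear hd hres hM
  induction M₁ using Nat.strong_induction_on with
  | _ M₁ ih =>
    by_cases h1 : ∃ q : ℕ, q.Prime ∧ q ∣ M₁ ∧ q ≠ p ∧ UnramifiedMod W p q
    · obtain ⟨q, hq, hqM, hqp, hun⟩ := h1
      have hd := Nat.div_dvd_of_dvd hqM
      exact ih _ (Nat.div_lt_self (Nat.pos_of_ne_zero hM₁.ne_zero) hq.one_lt)
        (level_div h hp2 hΔ hW hirr hI hM₁ hp₁ hq hqp hqM hun hres₁)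
        (fun hdp => hp₁ (hdp.trans hd)) (hM₁.squarefree_of_dvd hd)
    · exact ⟨M₁, hM₁, hres₁, fun q hq hqM hqp hun => h1 ⟨q, hq, hqM, hqp, hun⟩, hp₁⟩

omit h hp2 hΔ hW hirr in
/-- Modularity lifting at 3 and 5 (statement S59) from the inputs. -/
theorem modularityLifting (h : LiftingInputs) (p : ℕ) (hp : p = 3 ∨ p = 5)
    (W : WeierstrassCurve ℤ) (hΔ : W.Δ ≠ 0) (hW : W.IsSemistableModel)
    (hirr : W.ModRepIsIrreducible p) (M₀ : ℕ) [NeZero M₀]
    (hres₀ : W.IsResiduallyModularOfLevel p M₀) (hM₀ : ¬ p ^ 2 ∣ M₀)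
    (hM₀3 : ∀ q : ℕ, q.Prime → q ≠ p → ¬ q ^ 3 ∣ M₀) :
    Mlc1IsModularModelOfExactConductorLevel W := by
  have : Fact p.Prime := ⟨by rcases hp with rfl | rfl <;> decide⟩
  have hp2 : p ≠ 2 := by rcases hp with rfl | rfl <;> norm_num
  have hS : Setting W p := ⟨hp, hΔ, hW, hirr⟩
  have hI := Image.imageStep W p hS
  obtain ⟨M, hM, hres⟩ := h.sqLowering W p hS M₀ hres₀ hM₀ hM₀3
  obtain ⟨M', hM', hres', hq, hp'⟩ :=
    exists_minimal h.toLoweringInputs hp2 hΔ hW hirr hI hM hres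
  obtain ⟨N, f, B, hN, hf, hfa⟩ := h.minimalLifting W p hS hI M' hM' hres' hq hp'
  exact modular_conductor_of_almost_all pointInput steinbergInput hΔ hW hN hf B hfa

end FermatAgent.Wiring.Final
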