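import Fermat.Agent.Wiring.Final.Gaps
import Fermat.Agent.MazurPrinciple.PThree.Final
import Fermat.Agent.MazurPrinciple.Away.Main
import Fermat.Agent.RTLift.Sq.Toric

/-!
# The lowering and lifting inputs, reduced to two of them

The remaining two are discharged in `Proved`.
-/

set_option autoImplicit false

namespace FermatAgent.Wiring.Final

open RTLift.Finish

/-- All lowering inputs follow from the one at `q ≡ 1 mod p`. -/
theorem loweringInputs_of_one (h : QLoweringOne) : LoweringInputs :=
  ⟨MazurPrinciple.pLowering, MazurPrinciple.Away.qLoweringNe, h⟩

/-- The lifting inputs from lowering at `q ≡ 1 mod p` and minimal lifting. -/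
theorem liftingInputs_of (h : QLoweringOne) (hL : MinimalLiftingStep) :
    LiftingInputs :=
  { toLoweringInputs := loweringInputs_of_one h, sqLowering := RTLift.Sq.sqLoweringStep, minimalLifting := hL }

end FermatAgent.Wiring.Final
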