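import Fermat.Agent.RTLift.Finish.Image.Main
import Fermat.Agent.LocalP.Conditions.Mult
import Fermat.Agent.Mazur.Descent.Unramified
import Fermat.Agent.TW.Flat.Val

/-!
# A multiplicative prime `q ≠ p` with `p ∤ v_q(Δ)`: ramified `E[p]`, hence a full image
-/

set_option autoImplicit false

open scoped WeierstrassCurve.Affine

namespace FermatAgent.Wiring.Final

open WeierstrassCurve WeierstrassCurve.Affine FermatAgent.Local Polynomial

noncomputable section

local notation "Qb" => AlgebraicClosure ℚ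
local notation "GQ" => AlgebraicClosure ℚ ≃ₐ[ℚ] AlgebraicClosure ℚ

/-- At residue characteristic prime to the odd `p`, a Tate curve has a `p`-torsion point off `E₀`. -/
theorem exists_torsion_not_inE0 {K : Type*} [Field K] [DecidableEq K] [IsAlgClosed K]
    {A : ValuationSubring K} {W : WeierstrassCurve.Affine K} (hT : IsTate A W) (hΔ : W.Δ ≠ 0)
    {p : ℕ} (hp : p.Prime) (hp2 : p ≠ 2) (hpA : A.valuation (p : K) = 1) :
    ∃ P : W.Point, p • P = 0 ∧ ¬ InE0 A W P := by
  have hW := hT.intCoeffs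
  set R := IsLocalRing.residue A
  have hodd := hp.odd_of_ne_two hp2
  have hz : ∀ a : A, (a : K) = 0 → R a = 0 := fun a ha => by
    rw [show a = 0 from Subtype.ext ha, map_zero]
  have hnode : A.valuation ((W.ΨSq p).coeff 0) < 1 := by
    rw [LocalP.coeff_ΨSq_intModel hW, ← ValuationSubring.valuation_lt_one_iff,
      ← IsLocalRing.residue_eq_zero_iff, ← coeff_map, ← map_ΨSq,
      coeff_zero_eq_eval_zero, ΨSq_ofNat, if_neg (Nat.not_even_iff_odd.mpr hodd), mul_one,
      eval_pow, pow_eq_zero_iff two_ne_zero]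
    show (((intModel hW).map R).preΨ' p).eval 0 = 0
    rw [WeierstrassCurve.preΨ', ← coe_evalRingHom, map_preNormEDS']
    obtain ⟨z3', z4', z6'⟩ : ((intModel hW).map R).a₃ = 0 ∧
        ((intModel hW).map R).a₄ = 0 ∧ ((intModel hW).map R).a₆ = 0 :=
      ⟨hz _ hT.a₃, hz _ hT.a₄, by
        show R ⟨W.a₆, hW.a₆⟩ = 0
        rw [IsLocalRing.residue_eq_zero_iff, ValuationSubring.valuation_lt_one_iff]
        exact hT.c_lt⟩
    generalize (intModel hW).map R = V at z3' z4' z6' ⊢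
    have z2 : V.Ψ₂Sq.eval 0 = 0 := by simp [WeierstrassCurve.Ψ₂Sq, WeierstrassCurve.b₆, z3', z6']
    have z3 : V.Ψ₃.eval 0 = 0 := by
      simp [WeierstrassCurve.Ψ₃, WeierstrassCurve.b₈, z3', z4', z6']
    have z4 : V.preΨ₄.eval 0 = 0 := by
      simp [WeierstrassCurve.preΨ₄, WeierstrassCurve.b₆, WeierstrassCurve.b₈, z3', z4', z6']
    rw [map_pow, coe_evalRingHom, z2, z3, z4, zero_pow two_ne_zero]
    exact LocalP.preNormEDS'_zero_zero_zero p (by have := hp.two_le; omega)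
  have hpK : ((p : ℤ) : K) ≠ 0 := fun h => by
    rw [Int.cast_natCast] at h; rw [h, map_zero] at hpA; exact zero_ne_one hpA
  have hlead : A.valuation (W.ΨSq p).leadingCoeff = 1 := by
    rw [leadingCoeff_ΨSq _ hpK, Int.cast_natCast, map_pow, hpA, one_pow]
  obtain ⟨x, hx, hx1⟩ : ∃ x, (W.ΨSq p).eval x = 0 ∧ A.valuation x < 1 := by
    have hf : W.ΨSq p ≠ 0 := fun h => by simp [h] at hlead
    by_contra! hall
    refine hnode.not_ge ?_
    rw [(IsAlgClosed.splits (W.ΨSq p)).eq_prod_roots, coeff_C_mul, map_mul, hlead, one_mul,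
      coeff_zero_eq_eval_zero, eval_multiset_prod, Multiset.map_map, map_multiset_prod,
      Multiset.map_map]
    refine Multiset.one_le_prod_of_one_le fun v hv => ?_
    obtain ⟨r, hr, rfl⟩ := Multiset.mem_map.1 hv
    simp only [Function.comp_apply, eval_sub, eval_X, eval_C, zero_sub, Valuation.map_neg]
    exact hall r ((mem_roots hf).1 hr)
  obtain ⟨y, hy⟩ := exists_point_over W hΔ x
  refine ⟨.some x y hy, (nsmul_eq_zero_iff hy p).2 hx, ?_⟩
  rw [hT.not_inE0_iff]
  exact hx1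

variable {A : ValuationSubring Qb}

/-- Inertia moves some `p`-torsion point when `p ∤ v_q(Δ)`. -/
theorem exists_moved_torsion (E : WeierstrassCurve ℤ) {p q : ℕ} (hp : p.Prime) (hp2 : p ≠ 2)
    (hq : q.Prime) (hqp : q ≠ p) (hΔ0 : E.Δ ≠ 0) (hbad : (q : ℤ) ∣ E.Δ)
    (hc₄ : ¬ (q : ℤ) ∣ E.c₄) (hv : ¬ p ∣ padicValInt q E.Δ) (hA : A.LiesOverPrime q) :
    ∃ σ ∈ A.inertiaSubgroupIn ℚ, ∃ P : (qbarCurve E).Point, p • P = 0 ∧ σ • P ≠ P := by
  classical
  have : Fact q.Prime := ⟨hq⟩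
  by_contra! hall
  have hW := qbarCurve_intCoeffs E A
  have hvΔ : A.valuation (qbarCurve E).Δ < 1 := by
    rw [qbarCurve_Δ]; exact (val_intCast_lt_one_iff hq hA _).2 hbad
  have hΔ1 : (qbarCurve E).Δ ≠ 0 := by rw [qbarCurve_Δ]; exact_mod_cast hΔ0
  have hc : A.valuation (qbarCurve E).c₄ = 1 := by
    rw [qbarCurve_c₄]; exact val_intCast_eq_one hq hA hc₄
  obtain ⟨C, hT, hcv, hu, hr, hs, ht, hC⟩ := exists_tate_form hW hvΔ hΔ1 hc
  set W := (C • qbarCurve E).toAffine
  obtain ⟨m, hm⟩ : (q : ℤ) ^ padicValInt q E.Δ ∣ E.Δ := padicValInt_dvd _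
  have hmq : ¬ (q : ℤ) ∣ m := fun hd => by
    rcases (padicValInt_dvd_iff (p := q) (padicValInt q E.Δ + 1) E.Δ).1
      ((pow_succ (q : ℤ) _).symm ▸ (mul_dvd_mul_left _ hd).trans hm.symm.dvd) with h | h
    · exact hΔ0 h
    · omega
  have hval : A.valuation W.a₆ = A.valuation (q : Qb) ^ padicValInt q E.Δ := by
    rw [hcv, qbarCurve_Δ]
    conv_lhs => rw [hm]
    rw [Int.cast_mul, Int.cast_pow, map_mul, map_pow, Int.cast_natCast,
      val_intCast_eq_one hq hA hmq, mul_one]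
  have hΔC : W.Δ ≠ 0 := by
    show (C • qbarCurve E).Δ ≠ 0
    rw [WeierstrassCurve.variableChange_Δ]
    exact mul_ne_zero (pow_ne_zero _ (Units.ne_zero _)) hΔ1
  have hpv : A.valuation (p : Qb) = 1 :=
    val_natCast_eq_one hq hA fun h => hqp ((Nat.prime_dvd_prime_iff_eq hq hp).1 h)
  have hlow : ∀ {P : W.Point} {g : A.ValueGroup}, p • P = 0 → Low A W P g → False := by
    intro P g hP hg
    obtain ⟨k, hk⟩ := hT.low_level hΔC hg hp.pos (by rw [hP]; trivial)
    rcases P with _ | ⟨x, y, h⟩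
    · exact hg.elim
    obtain ⟨e, hcg, hg1, -⟩ := hg
    have hfix : ∀ σ ∈ A.inertiaSubgroupIn ℚ, σ x = x := by
      intro σ hσ
      have h1 := hall σ hσ (vcHom (qbarCurve E) C (.some x y h))
        (by rw [← map_nsmul, hP, map_zero])
      rw [galois_smul_eq_conjPoint, ← vcHom_conjPoint (qbarCurve_conj E _)
        (hC σ hσ (qbarCurve_conj E _))] at h1
      have h2 := (vcHom_bijective _ _).1 h1
      rw [conjPoint_some, Point.some.injEq] at h2
      exact h2.1
    have hx0 : x ≠ 0 := fun h0 => by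
      rw [h0, map_zero] at e
      rw [← e, zero_pow two_ne_zero] at hcg
      exact absurd hcg (not_lt.2 zero_le)
    obtain ⟨n, hn⟩ := Mazur.Descent.exists_val_eq_zpow_of_inertia_fixed hq hA hx0 hfix
    set u := A.valuation (q : Qb)
    have hu1 : u < 1 := hA
    have hu0 : u ≠ 0 := (_root_.map_ne_zero _).2 (Nat.cast_ne_zero.2 hq.ne_zero)
    rw [← e, hn, hval] at hk hcg
    rw [← e, hn] at hg1
    set v := padicValInt q E.Δ
    have e1 : n * (p : ℤ) = (v : ℤ) * k := TW.zpow_inj_of_lt_one hu0 hu1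
      (by rw [_root_.zpow_mul, _root_.zpow_mul, zpow_natCast, zpow_natCast]; exact hk)
    rw [← zpow_natCast u v, ← zpow_natCast (u ^ n) 2, ← _root_.zpow_mul,
      TW.Flat.zpow_lt_zpow_iff' hu0 hu1] at hcg
    rw [← zpow_zero u, TW.Flat.zpow_lt_zpow_iff' hu0 hu1] at hg1
    push_cast at hcg
    have hdvd : (p : ℤ) ∣ k := by
      refine ((Nat.prime_iff_prime_int.1 hp).dvd_mul.1 ⟨n, by rw [← e1]; ring⟩).resolve_left ?_
      exact fun h => hv (by exact_mod_cast h)
    obtain ⟨j, rfl⟩ := hdvd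
    have e2 : n = v * j := mul_right_cancel₀ (Nat.cast_ne_zero.2 hp.ne_zero : (p : ℤ) ≠ 0)
      (by rw [e1]; ring)
    rw [e2] at hcg hg1
    rcases le_or_gt j 0 with hj | hj
    · exact absurd hg1 (not_lt.2 (mul_nonpos_of_nonneg_of_nonpos (Int.natCast_nonneg v) hj))
    · nlinarith
  obtain ⟨P, hP, hE⟩ := exists_torsion_not_inE0 hT hΔC hp hp2 hpv
  rcases hT.classify hE with ⟨g, hg⟩ | ⟨g, hg⟩ | hmid
  · exact hlow hP hg
  · exact hlow (by rw [neg_nsmul, hP, neg_zero]) hg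
  · obtain ⟨m', hm'⟩ := hp.odd_of_ne_two hp2
    have h2 : InE0 A W (P + P) := by simpa using hT.same_mid hmid (hT.mid_neg hmid)
    have h3 := (e0Subgroup A W hT.intCoeffs).nsmul_mem h2 m'
    have h4 : P = -(m' • (P + P)) := by
      rw [eq_neg_iff_add_eq_zero, ← hP, hm', succ_nsmul, mul_comm, mul_nsmul', two_nsmul, add_comm]
    exact hE (h4 ▸ h3.neg' hT.intCoeffs)

open RTLift.Finish in
/-- A semistable irreducible `E[p]` with such a prime has full image. -/
theorem fullImage_of_not_dvd {W : WeierstrassCurve ℤ} {p : ℕ} [Fact p.Prime] (hp2 : p ≠ 2)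
    (hss : W.IsSemistableModel) (hirr : W.ModRepIsIrreducible p) {q : ℕ} (hq : q.Prime)
    (hqp : q ≠ p) (hbad : (q : ℤ) ∣ W.Δ) (hv : ¬ p ∣ padicValInt q W.Δ) : FullImage W p := by
  intro hΔ g hg
  have hp := (Fact.out : p.Prime)
  obtain ⟨A, hA⟩ := RT.exists_liesOverPrime hq
  obtain ⟨σ, hσ, P, hP, hmove⟩ := exists_moved_torsion W hp hp2 hq hqp
    (GalRep.Tate.intΔ_ne_zero W hΔ) hbad (hss q hq hbad) hv hA
  have hne : Image.galMat W (p := p) hΔ σ ≠ 1 := fun h => by
    have h1 := congrArg Units.val h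
    rw [Image.val_galMat, Units.val_one, map_eq_one_iff _ (AlgEquiv.injective _)] at h1
    exact hmove (congrArg Subtype.val (LinearMap.congr_fun h1
      ⟨P, by rw [Submodule.mem_torsionBy_iff, natCast_zsmul]; exact hP⟩))
  have htop : (Image.galMat W (p := p) hΔ).range = ⊤ :=
    Image.eq_top_of_order_p (Image.hypotheses_range W (p := p) hΔ hp2 hirr)
      (u := ⟨_, σ, rfl⟩)
      (Subtype.ext (Image.galMat_pow_inertia W hΔ hss hq hqp hA hσ))
      fun h => hne (congrArg Subtype.val h)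
  set b := Image.basisTor W (p := p) hΔ
  have hu : IsUnit (LinearMap.toMatrixAlgEquiv b g) := hg.map (LinearMap.toMatrixAlgEquiv b)
  obtain ⟨τ, hτ⟩ : hu.unit ∈ (Image.galMat W (p := p) hΔ).range := htop ▸ Subgroup.mem_top _
  refine ⟨τ, (LinearMap.toMatrixAlgEquiv b).injective ?_⟩
  rw [← Image.val_galMat, hτ, IsUnit.unit_spec]

end

end FermatAgent.Wiring.Final
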